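import Mathlib

set_option autoImplicit false

namespace Fermat.Agent.S53_helper60

open Matrix

section Nakayama

variable {A : Type*} [CommRing A] [IsLocalRing A]
variable {n : Type*} [Fintype n] [DecidableEq n]
variable {G : Type*} [Monoid G]

omit [IsLocalRing A] in
/-- A matrix all of whose entries lie in an ideal `I` belongs to `I • ⊤`. -/
theorem mem_smul_top_of_entries_mem (I : Ideal A) (m : Matrix n n A) (h : ∀ i j, m i j ∈ I) :
    m ∈ I • (⊤ : Submodule A (Matrix n n A)) := by
  rw [Matrix.matrix_eq_sum_single m]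
  refine Submodule.sum_mem _ fun i _ => Submodule.sum_mem _ fun j _ => ?_
  have : Matrix.single i j (m i j) = (m i j) • Matrix.single i j (1 : A) := by
    rw [Matrix.smul_single, smul_eq_mul, mul_one]
  rw [this]
  exact Submodule.smul_mem_smul (h i j) trivial

/-- Nakayama: if the residual matrices span the full matrix algebra over the residue field, then
the matrices span the full matrix algebra. -/
theorem span_range_eq_top_of_residue (ρ : G →* Matrix n n A)
    (h : Submodule.span (IsLocalRing.ResidueField A)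
      (Set.range fun g => (ρ g).map (IsLocalRing.residue A)) = ⊤) :
    Submodule.span A (Set.range ρ) = ⊤ := by
  set N := Submodule.span A (Set.range ρ) with hN
  have key : ∀ mbar : Matrix n n (IsLocalRing.ResidueField A),
      ∃ m₀ ∈ N, m₀.map (IsLocalRing.residue A) = mbar := by
    intro mbar
    have hm : mbar ∈ Submodule.span (IsLocalRing.ResidueField A)
        (Set.range fun g => (ρ g).map (IsLocalRing.residue A)) := by rw [h]; trivial
    induction hm using Submodule.span_induction with
    | mem x hx =>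
      obtain ⟨g, rfl⟩ := hx
      exact ⟨ρ g, Submodule.subset_span ⟨g, rfl⟩, rfl⟩
    | zero => exact ⟨0, Submodule.zero_mem _, by ext; simp⟩
    | add x y _ _ hx hy =>
      obtain ⟨a, ha, rfl⟩ := hx
      obtain ⟨b, hb, rfl⟩ := hy
      exact ⟨a + b, Submodule.add_mem _ ha hb, by ext; simp⟩
    | smul c x _ hx =>
      obtain ⟨a, ha, rfl⟩ := hx
      obtain ⟨c, rfl⟩ := IsLocalRing.residue_surjective c
      exact ⟨c • a, Submodule.smul_mem _ _ ha, by ext; simp⟩
  rw [eq_top_iff]
  apply Submodule.le_of_le_smul_of_le_jacobson_bot (I := IsLocalRing.maximalIdeal A)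
    (Module.Finite.fg_top) (IsLocalRing.maximalIdeal_le_jacobson _)
  intro m _
  obtain ⟨m₀, hm₀, hm₀m⟩ := key (m.map (IsLocalRing.residue A))
  have hmem : m - m₀ ∈ IsLocalRing.maximalIdeal A • (⊤ : Submodule A (Matrix n n A)) := by
    apply mem_smul_top_of_entries_mem
    intro i j
    have := congrFun (congrFun hm₀m i) j
    simp only [Matrix.map_apply] at this
    rw [Matrix.sub_apply, ← IsLocalRing.residue_eq_zero_iff, map_sub, this, sub_self]
  have : m = m₀ + (m - m₀) := by abel
  rw [this]
  exact Submodule.add_mem_sup hm₀ hmem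

end Nakayama

section Carayol

variable {A : Type*} [CommRing A] {G : Type*} [Monoid G]

/-- Shorthand for 2×2 matrices. -/
abbrev M₂ (A : Type*) := Matrix (Fin 2) (Fin 2) A

/-- Elementary 2×2 matrices. -/
def E (A : Type*) [CommRing A] (i j : Fin 2) : M₂ A := Matrix.single i j 1

theorem E_mul_E_same (i j k : Fin 2) : E A i j * E A j k = E A i k := by
  unfold E; rw [Matrix.single_mul_single_same, mul_one]

theorem E_mul_E_of_ne (i j k l : Fin 2) (h : j ≠ k) : E A i j * E A k l = 0 := by
  unfold E; rw [Matrix.single_mul_single_of_ne _ _ _ _ h]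

theorem mul_E_zero_zero (M : M₂ A) :
    M * E A 0 0 = (M 0 0) • E A 0 0 + (M 1 0) • E A 1 0 := by
  unfold E
  ext i j
  fin_cases i <;> fin_cases j <;> simp [Matrix.mul_apply, Matrix.single]

theorem one_eq_sum_E : (1 : M₂ A) = E A 0 0 * E A 0 0 + E A 1 0 * E A 0 1 := by
  unfold E
  ext i j
  fin_cases i <;> fin_cases j <;> simp [Matrix.mul_apply, Matrix.single]

theorem eq_of_mul_E_eq {M M' : M₂ A} (h : ∀ i : Fin 2, M * E A i 0 = M' * E A i 0) : M = M' := by
  ext a b
  have := congrFun (congrFun (h b) a) 0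
  simpa [E] using this

theorem trace_E_zero_zero : (E A 0 0).trace = 1 := by
  simp [E]

/-- The algebra hom from the monoid algebra extending a matrix-valued monoid hom. -/
noncomputable def algExt (ρ : G →* M₂ A) : MonoidAlgebra A G →ₐ[A] M₂ A :=
  MonoidAlgebra.lift A (M₂ A) G ρ

theorem algExt_of (ρ : G →* M₂ A) (g : G) : algExt ρ (MonoidAlgebra.of A G g) = ρ g := by
  simp [algExt]

theorem algExt_surjective (ρ : G →* M₂ A)
    (h : Submodule.span A (Set.range ρ) = ⊤) : Function.Surjective (algExt ρ) := by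
  intro m
  have hm : m ∈ Submodule.span A (Set.range ρ) := by rw [h]; trivial
  induction hm using Submodule.span_induction with
  | mem x hx =>
    obtain ⟨g, rfl⟩ := hx
    exact ⟨MonoidAlgebra.of A G g, algExt_of ρ g⟩
  | zero => exact ⟨0, map_zero _⟩
  | add x y _ _ hx hy =>
    obtain ⟨a, rfl⟩ := hx
    obtain ⟨b, rfl⟩ := hy
    exact ⟨a + b, map_add _ _ _⟩
  | smul c x _ hx =>
    obtain ⟨a, rfl⟩ := hx
    exact ⟨c • a, map_smul _ _ _⟩

theorem trace_algExt_eq (ρ ρ' : G →* M₂ A)
    (htr : ∀ g, (ρ g).trace = (ρ' g).trace) (x : MonoidAlgebra A G) :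
    (algExt ρ x).trace = (algExt ρ' x).trace := by
  induction x using MonoidAlgebra.induction_on with
  | of g => rw [algExt_of, algExt_of, htr]
  | add a b ha hb => rw [map_add, map_add, Matrix.trace_add, Matrix.trace_add, ha, hb]
  | smul c a ha => rw [map_smul, map_smul, Matrix.trace_smul, Matrix.trace_smul, ha]

/-- The kernel of `algExt ρ` is contained in the kernel of `algExt ρ'` when traces agree and
`ρ'` has full span. -/
theorem algExt_eq_zero_of_trace_eq (ρ ρ' : G →* M₂ A)
    (h' : Submodule.span A (Set.range ρ') = ⊤)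
    (htr : ∀ g, (ρ g).trace = (ρ' g).trace) {z : MonoidAlgebra A G} (hz : algExt ρ z = 0) :
    algExt ρ' z = 0 := by
  rw [Matrix.ext_iff_trace_mul_left]
  intro m
  obtain ⟨w, rfl⟩ := algExt_surjective ρ' h' m
  rw [← map_mul, ← trace_algExt_eq ρ ρ' htr, map_mul, hz, mul_zero, mul_zero]

variable [IsLocalRing A]

/-- Carayol's theorem (2×2 case): two matrix representations over a local ring with full span and
equal traces are conjugate. -/
theorem exists_conj_of_trace_eq (ρ ρ' : G →* M₂ A)
    (h : Submodule.span A (Set.range ρ) = ⊤) (h' : Submodule.span A (Set.range ρ') = ⊤)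
    (htr : ∀ g, (ρ g).trace = (ρ' g).trace) :
    ∃ P : (M₂ A)ˣ, ∀ g, (P : M₂ A) * ρ g = ρ' g * P := by
  set R := algExt ρ with hR
  set R' := algExt ρ' with hR'
  have hsurj := algExt_surjective ρ h
  have hsurj' := algExt_surjective ρ' h'
  obtain ⟨x₁, hx₁⟩ := hsurj (E A 0 0)
  obtain ⟨x₂, hx₂⟩ := hsurj (E A 1 0)
  set e := R' x₁ with he
  have hetr : e 0 0 + e 1 1 = 1 := by
    rw [← Matrix.trace_fin_two, he, hR', ← trace_algExt_eq ρ ρ' htr, ← hR, hx₁, trace_E_zero_zero]
  obtain ⟨j, hj⟩ : ∃ j : Fin 2, IsUnit (e j j) := by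
    rcases IsLocalRing.isUnit_or_isUnit_of_add_one hetr with h0 | h1
    · exact ⟨0, h0⟩
    · exact ⟨1, h1⟩
  -- key lemma K
  have hK : ∀ y, R y * E A 0 0 = 0 → R' y * e = 0 := by
    intro y hy
    have : R (y * x₁) = 0 := by rw [map_mul, hx₁, hy]
    have := algExt_eq_zero_of_trace_eq ρ ρ' h' htr this
    rwa [← hR', map_mul] at this
  -- the intertwiner
  set c : M₂ A := e * E A j 0 with hc
  set T : M₂ A := R' x₁ * e * E A j 0 + R' x₂ * e * E A j 1 with hT
  have hxi : ∀ i : Fin 2, ∃ x, R x = E A i 0 := by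
    intro i; fin_cases i
    · exact ⟨x₁, hx₁⟩
    · exact ⟨x₂, hx₂⟩
  have hT0 : T * E A 0 0 = R' x₁ * c := by
    rw [hT, add_mul, mul_assoc _ (E A j 0), mul_assoc _ (E A j 1), E_mul_E_same,
      E_mul_E_of_ne _ _ _ _ (by decide), mul_zero, add_zero, hc, mul_assoc]
  have hT1 : T * E A 1 0 = R' x₂ * c := by
    rw [hT, add_mul, mul_assoc _ (E A j 0), mul_assoc _ (E A j 1), E_mul_E_same,
      E_mul_E_of_ne _ _ _ _ (by decide), mul_zero, zero_add, hc, mul_assoc]
  -- lemma L
  have hL : ∀ y, T * (R y * E A 0 0) = R' y * c := by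
    intro y
    set a := (R y) 0 0
    set b := (R y) 1 0
    have hz : R (y - a • x₁ - b • x₂) * E A 0 0 = 0 := by
      rw [map_sub, map_sub, map_smul, map_smul, hx₁, hx₂, sub_mul, sub_mul, mul_E_zero_zero,
        smul_mul_assoc, smul_mul_assoc, E_mul_E_same, E_mul_E_same]
      abel
    have hz' := hK _ hz
    rw [map_sub, map_sub, map_smul, map_smul, sub_mul, sub_mul, sub_sub, sub_eq_zero] at hz'
    rw [mul_E_zero_zero, mul_add, mul_smul_comm, mul_smul_comm, hT0, hT1, hc,
      ← mul_assoc, ← mul_assoc, ← mul_assoc, hz', add_mul, smul_mul_assoc, smul_mul_assoc,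
      smul_mul_assoc, smul_mul_assoc]
  have hTi : ∀ i : Fin 2, ∀ x, R x = E A i 0 → T * E A i 0 = R' x * c := by
    intro i x hx
    have := hL x
    rwa [hx, E_mul_E_same] at this
  -- intertwining
  have hint : ∀ g, T * ρ g = ρ' g * T := by
    intro g
    apply eq_of_mul_E_eq
    intro i
    obtain ⟨x, hx⟩ := hxi i
    have h1 : ρ g * E A i 0 = R (MonoidAlgebra.of A G g * x) * E A 0 0 := by
      rw [map_mul, hx, hR, algExt_of, mul_assoc, E_mul_E_same]
    rw [mul_assoc, h1, hL, mul_assoc, hTi i x hx, map_mul, hR', algExt_of, mul_assoc]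
  -- invertibility
  obtain ⟨u, hu⟩ := hj
  have hcj : ∀ i : Fin 2, (↑u⁻¹ : A) • E A i j * c = E A i 0 := by
    intro i
    have hcb : ∀ b : Fin 2, c j b = if b = 0 then (u : A) else 0 := by
      intro b
      rw [hc, hu]
      fin_cases b <;> simp [E, Matrix.mul_apply, Matrix.single]
    ext a b
    simp only [E, Matrix.smul_single, smul_eq_mul, mul_one]
    by_cases hai : a = i
    · subst hai
      rw [Matrix.single_mul_apply_same, hcb]
      fin_cases b <;> simp [Matrix.single]
    · rw [Matrix.single_mul_apply_of_ne _ _ _ _ _ hai]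
      simp [Matrix.single, Ne.symm hai]
  have hyi : ∀ i : Fin 2, ∃ y, T * (R y * E A 0 0) = E A i 0 := by
    intro i
    obtain ⟨y, hy⟩ := hsurj' ((↑u⁻¹ : A) • E A i j)
    exact ⟨y, by rw [hL, hy, hcj]⟩
  obtain ⟨y₀, hy₀⟩ := hyi 0
  obtain ⟨y₁, hy₁⟩ := hyi 1
  set B : M₂ A := R y₀ * E A 0 0 * E A 0 0 + R y₁ * E A 0 0 * E A 0 1 with hB
  have hTB : T * B = 1 := by
    have e0 : T * (R y₀ * E A 0 0 * E A 0 0) = E A 0 0 * E A 0 0 := by
      rw [← mul_assoc T, hy₀]
    have e1 : T * (R y₁ * E A 0 0 * E A 0 1) = E A 1 0 * E A 0 1 := by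
      rw [← mul_assoc T, hy₁]
    rw [hB, mul_add, e0, e1, ← one_eq_sum_E]
  have hBT : B * T = 1 := mul_eq_one_comm.1 hTB
  exact ⟨⟨T, B, hTB, hBT⟩, hint⟩

end Carayol

section Schur

variable {A : Type*} [CommRing A] {n : Type*} [Fintype n] [DecidableEq n]
variable {G : Type*} [Monoid G]

/-- Schur's lemma for a matrix representation with full span: anything commuting with the image
is a scalar matrix. -/
theorem mem_range_scalar_of_commute (ρ : G →* Matrix n n A)
    (h : Submodule.span A (Set.range ρ) = ⊤) {m : Matrix n n A}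
    (hm : ∀ g, Commute (ρ g) m) : m ∈ Set.range (Matrix.scalar n) := by
  have hall : ∀ x : Matrix n n A, Commute x m := by
    intro x
    have hx : x ∈ Submodule.span A (Set.range ρ) := by rw [h]; trivial
    induction hx using Submodule.span_induction with
    | mem x hx =>
      obtain ⟨g, rfl⟩ := hx
      exact hm g
    | zero => exact Commute.zero_left m
    | add x y _ _ hx hy => exact hx.add_left hy
    | smul c x _ hx => exact hx.smul_left c
  exact Matrix.mem_range_scalar_of_commute_single fun i j _ => hall _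

end Schur

end Fermat.Agent.S53_helper60
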