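import Mathlib

set_option autoImplicit false

namespace Fermat.Agent.S53_helper60

open Module

section AlgClosed

variable {K : Type*} [Field K] {W : Type*} [AddCommGroup W] [Module K W]
variable {G : Type*} [Monoid G]

/-- The span of the image of a monoid hom into an endomorphism algebra is closed under
multiplication. -/
theorem mul_mem_span_range (ρ : G →* Module.End K W) {a b : Module.End K W}
    (ha : a ∈ Submodule.span K (Set.range ρ)) (hb : b ∈ Submodule.span K (Set.range ρ)) :
    a * b ∈ Submodule.span K (Set.range ρ) := by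
  have h : Submodule.span K (Set.range ρ) =
      Subalgebra.toSubmodule (Algebra.adjoin K (Set.range ρ)) := by
    rw [Algebra.adjoin_eq_span]
    congr 1
    have : (Set.range ρ) = ((MonoidHom.mrange ρ : Submonoid (Module.End K W)) : Set _) := by
      ext x; simp
    rw [this, Submonoid.closure_eq]
  rw [h] at ha hb ⊢
  exact (Algebra.adjoin K (Set.range ρ)).mul_mem ha hb

theorem one_mem_span_range (ρ : G →* Module.End K W) :
    (1 : Module.End K W) ∈ Submodule.span K (Set.range ρ) :=
  Submodule.subset_span ⟨1, map_one ρ⟩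

/-- If `ρ` has no proper nonzero stable subspace, then the orbit of any nonzero vector under the
span of the image is everything. -/
theorem exists_mem_span_apply_eq (ρ : G →* Module.End K W)
    (hirr : ∀ U : Submodule K W, (∀ g, ∀ x ∈ U, ρ g x ∈ U) → U = ⊥ ∨ U = ⊤)
    {v : W} (hv : v ≠ 0) (w : W) :
    ∃ a ∈ Submodule.span K (Set.range ρ), a v = w := by
  set 𝒜 := Submodule.span K (Set.range ρ) with h𝒜
  let U : Submodule K W := Submodule.map (LinearMap.applyₗ v) 𝒜
  have hU : ∀ g, ∀ x ∈ U, ρ g x ∈ U := by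
    rintro g x ⟨a, ha, rfl⟩
    refine ⟨ρ g * a, mul_mem_span_range ρ (Submodule.subset_span ⟨g, rfl⟩) ha, ?_⟩
    simp
  have hvU : v ∈ U := ⟨1, one_mem_span_range ρ, by simp⟩
  rcases hirr U hU with h | h
  · rw [h, Submodule.mem_bot] at hvU
    exact absurd hvU hv
  · have : w ∈ U := by rw [h]; trivial
    obtain ⟨a, ha, rfl⟩ := this
    exact ⟨a, ha, by simp⟩

variable [IsAlgClosed K]

/-- Burnside's theorem in dimension two over an algebraically closed field. -/
theorem span_range_eq_top_of_irreducible (h2 : Module.finrank K W = 2)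
    (ρ : G →* Module.End K W)
    (hirr : ∀ U : Submodule K W, (∀ g, ∀ x ∈ U, ρ g x ∈ U) → U = ⊥ ∨ U = ⊤) :
    Submodule.span K (Set.range ρ) = ⊤ := by
  have : FiniteDimensional K W := Module.finite_of_finrank_eq_succ h2
  have : Nontrivial W := Module.nontrivial_of_finrank_pos (R := K) (by omega)
  set 𝒜 := Submodule.span K (Set.range ρ) with h𝒜
  -- some `ρ g` is not a scalar
  have hns : ∃ g, ∀ c : K, ρ g ≠ c • (1 : Module.End K W) := by
    by_contra hcon
    push Not at hcon
    obtain ⟨v, hv⟩ := exists_ne (0 : W)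
    have hst : ∀ g, ∀ x ∈ (K ∙ v), ρ g x ∈ (K ∙ v) := by
      intro g x hx
      obtain ⟨c, hc⟩ := hcon g
      rw [hc]
      simpa using Submodule.smul_mem _ c hx
    rcases hirr (K ∙ v) hst with h | h
    · exact hv ((Submodule.span_singleton_eq_bot).1 h)
    · have h1 := finrank_span_singleton (K := K) hv
      rw [h, finrank_top, h2] at h1
      omega
  obtain ⟨g, hg⟩ := hns
  obtain ⟨μ, hμ⟩ := Module.End.exists_eigenvalue (ρ g)
  obtain ⟨v₁, hv₁⟩ := hμ.exists_hasEigenvector
  have hv₁0 : v₁ ≠ 0 := hv₁.2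
  set n : Module.End K W := ρ g - μ • 1 with hn
  have hn𝒜 : n ∈ 𝒜 :=
    Submodule.sub_mem _ (Submodule.subset_span ⟨g, rfl⟩)
      (Submodule.smul_mem _ _ (one_mem_span_range ρ))
  have hnv₁ : n v₁ = 0 := by
    have := hv₁.apply_eq_smul
    simp [hn, this]
  have hn0 : n ≠ 0 := by
    intro h0
    apply hg μ
    rw [hn, sub_eq_zero] at h0
    exact h0
  obtain ⟨v₂, hv₂⟩ : ∃ v₂, n v₂ ≠ 0 := by
    by_contra hcon
    push Not at hcon
    exact hn0 (LinearMap.ext hcon)
  set u := n v₂ with hu
  -- `v₁, v₂` is a basis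
  have hli : LinearIndependent K ![v₁, v₂] := by
    rw [LinearIndependent.pair_iff]
    intro s t hst
    have h1 : n (s • v₁ + t • v₂) = 0 := by rw [hst, map_zero]
    rw [map_add, map_smul, map_smul, hnv₁, smul_zero, zero_add] at h1
    have ht : t = 0 := by
      rcases smul_eq_zero.1 h1 with h | h
      · exact h
      · exact absurd h hv₂
    rw [ht, zero_smul, add_zero] at hst
    rcases smul_eq_zero.1 hst with h | h
    · exact ⟨h, ht⟩
    · exact absurd h hv₁0
  have hspan : Submodule.span K (Set.range ![v₁, v₂]) = ⊤ :=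
    hli.span_eq_top_of_card_eq_finrank (by simp [h2])
  have hspan' : Submodule.span K ({v₁, v₂} : Set W) = ⊤ := by
    rw [← hspan]; congr 1; ext x; simp [eq_comm, or_comm]
  -- an element of `𝒜` sending `v₁` to `v₂`
  obtain ⟨y₁, hy₁𝒜, hy₁⟩ := exists_mem_span_apply_eq ρ hirr hv₁0 v₂
  obtain ⟨α, β, hαβ⟩ : ∃ α β : K, α • v₁ + β • v₂ = y₁ v₂ := by
    have : y₁ v₂ ∈ Submodule.span K ({v₁, v₂} : Set W) := by rw [hspan']; trivial
    exact Submodule.mem_span_pair.1 this
  set n₁ : Module.End K W := n * y₁ - β • n with hn₁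
  have hn₁𝒜 : n₁ ∈ 𝒜 :=
    Submodule.sub_mem _ (mul_mem_span_range ρ hn𝒜 hy₁𝒜) (Submodule.smul_mem _ _ hn𝒜)
  have hn₁v₁ : n₁ v₁ = u := by
    simp [hn₁, hy₁, hnv₁, hu]
  have hn₁v₂ : n₁ v₂ = 0 := by
    simp only [hn₁, LinearMap.sub_apply, Module.End.mul_apply, LinearMap.smul_apply]
    rw [← hαβ, map_add, map_smul, map_smul, hnv₁, smul_zero, zero_add, ← hu, sub_self]
  rw [eq_top_iff]
  intro f _
  obtain ⟨x₁, hx₁𝒜, hx₁⟩ := exists_mem_span_apply_eq ρ hirr hv₂ (f v₁)
  obtain ⟨x₂, hx₂𝒜, hx₂⟩ := exists_mem_span_apply_eq ρ hirr hv₂ (f v₂)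
  have hf : f = x₁ * n₁ + x₂ * n := by
    apply LinearMap.ext_on hspan'
    intro z hz
    rcases hz with rfl | rfl
    · simp [hn₁v₁, hnv₁, hx₁]
    · simp [hn₁v₂, ← hu, hx₂]
  rw [hf]
  exact Submodule.add_mem _ (mul_mem_span_range ρ hx₁𝒜 hn₁𝒜) (mul_mem_span_range ρ hx₂𝒜 hn𝒜)

end AlgClosed


open TensorProduct

section Descent

variable {k : Type*} [Field k] {V : Type*} [AddCommGroup V] [Module k V]
variable {G : Type*} [Monoid G]

/-- Base change of a monoid hom into endomorphisms. -/
noncomputable def baseChangeHom (K : Type*) [Field K] [Algebra k K] (ρ : G →* Module.End k V) :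
    G →* Module.End K (K ⊗[k] V) where
  toFun g := (ρ g).baseChange K
  map_one' := by rw [map_one, LinearMap.baseChange_one]
  map_mul' a b := by rw [map_mul, LinearMap.baseChange_mul]

@[simp] theorem baseChangeHom_apply (K : Type*) [Field K] [Algebra k K] (ρ : G →* Module.End k V)
    (g : G) : baseChangeHom K ρ g = (ρ g).baseChange K := rfl

/-- Absolutely irreducible two-dimensional representations have full span. -/
theorem span_range_eq_top_of_baseChange_irreducible (h2 : Module.finrank k V = 2)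
    (ρ : G →* Module.End k V) (K : Type*) [Field K] [Algebra k K] [IsAlgClosed K]
    (hirr : ∀ U : Submodule K (K ⊗[k] V),
      (∀ g, ∀ x ∈ U, (ρ g).baseChange K x ∈ U) → U = ⊥ ∨ U = ⊤) :
    Submodule.span k (Set.range ρ) = ⊤ := by
  have : FiniteDimensional k V := Module.finite_of_finrank_eq_succ h2
  have h2K : Module.finrank K (K ⊗[k] V) = 2 := by rw [Module.finrank_baseChange, h2]
  have hK := span_range_eq_top_of_irreducible h2K (baseChangeHom K ρ) hirr
  by_contra hne
  set 𝒜 := Submodule.span k (Set.range ρ) with h𝒜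
  have hlt : Module.finrank k 𝒜 < 4 := by
    have := Submodule.finrank_lt hne
    rwa [Module.finrank_linearMap, h2] at this
  let b := Module.finBasis k 𝒜
  let φ : Module.End k V →ₗ[k] Module.End K (K ⊗[k] V) := LinearMap.baseChangeHom k K V V
  let s : Fin (Module.finrank k 𝒜) → Module.End K (K ⊗[k] V) := fun i => φ (b i : Module.End k V)
  have hle : Submodule.span K (Set.range (baseChangeHom K ρ)) ≤ Submodule.span K (Set.range s) := by
    rw [Submodule.span_le]
    rintro _ ⟨g, rfl⟩
    have hg : ρ g ∈ 𝒜 := Submodule.subset_span ⟨g, rfl⟩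
    have hrepr := b.sum_repr ⟨ρ g, hg⟩
    have hrepr' : ρ g = ∑ i, (b.repr ⟨ρ g, hg⟩ i) • (b i : Module.End k V) := by
      have := congrArg (Subtype.val) hrepr
      rw [Submodule.coe_sum] at this
      simpa only [Submodule.coe_smul] using this.symm
    have : baseChangeHom K ρ g = ∑ i, (algebraMap k K (b.repr ⟨ρ g, hg⟩ i)) • s i := by
      change φ (ρ g) = _
      conv_lhs => rw [hrepr']
      rw [map_sum]
      refine Finset.sum_congr rfl fun i _ => ?_
      rw [map_smul, algebraMap_smul]
    rw [SetLike.mem_coe, this]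
    exact Submodule.sum_mem _ fun i _ => Submodule.smul_mem _ _ (Submodule.subset_span ⟨i, rfl⟩)
  rw [hK, top_le_iff] at hle
  have hcard : Set.finrank K (Set.range s) ≤ Module.finrank k 𝒜 := by
    simpa using finrank_range_le_card (R := K) s
  have htop : Set.finrank K (Set.range s) = 4 := by
    unfold Set.finrank
    rw [hle, finrank_top, Module.finrank_linearMap, h2K]
  omega

end Descent

end Fermat.Agent.S53_helper60
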